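/-
S41lib / BR / Lattice (helper1), brick X1, part 1.

The operators of the block HC restricted to the lattices `L_M = VZ (Γ₀(M)) = Hom_par(Γ₀(M), ℤ)`,
as `ℤ`-linear maps:
`tL hℓ hℓM : End_ℤ(L_M)`, `resL, degL : L_N → L_{N q}`, `coresAL, coresBL : L_{N q} → L_N`,
`alWL : End_ℤ(L_{N q})`, their identities and commutations, and the packaged maps
`alphaL : L_N × L_N → L_{N q}`, `betaL : L_{N q} → L_N × L_N`, `tLL = T_ℓ × T_ℓ`.
-/
import Mathlib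
import Fermat.Agent.S41lib.HC.CommuteAL
import Fermat.Agent.S41lib.HC.Parabolic
import Fermat.Agent.S16lib.LG.Lift

set_option autoImplicit false
set_option linter.unusedSectionVars false

noncomputable section

namespace Fermat.Agent.S41lib.BR

open CongruenceSubgroup ModularCurve.Period
open Fermat.Agent.S41lib.HC Fermat.Agent.S16lib.LG
open scoped MatrixGroups

/-- `N q ≠ 0` -/
theorem neZero_mul (N q : ℕ) [NeZero N] [Fact q.Prime] : NeZero (N * q) :=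
  ⟨Nat.mul_ne_zero (NeZero.ne N) (Fact.out : q.Prime).ne_zero⟩

/-! ### Hecke operators -/

section T

variable {M ℓ : ℕ} (hℓ : ℓ.Prime) (hℓM : ¬ ℓ ∣ M)

/-- `T_ℓ` on the lattice `L_M` -/
def tL : Module.End ℤ ↥(VZ (Gamma0 M)) :=
  haveI : Fact ℓ.Prime := ⟨hℓ⟩
  ((tData hℓM).opₗ ℤ ℤ).restrict (p := VZ (Gamma0 M)) (q := VZ (Gamma0 M))
    (fun _ hφ => heckeT_isParabolicHom hℓM hφ)

@[simp] theorem tL_coe [Fact ℓ.Prime] (v : ↥(VZ (Gamma0 M))) :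
    ((tL hℓ hℓM v : ↥(VZ (Gamma0 M))) : H (Gamma0 M) ℤ) = heckeT hℓM ℤ v.1 := rfl

end T

/-! ### Level changing operators -/

section Level

variable {N q : ℕ} [NeZero N] [Fact q.Prime] (hqN : ¬ q ∣ N)

variable (N q) in
/-- restriction `L_N → L_{N q}` -/
def resL : ↥(VZ (Gamma0 N)) →ₗ[ℤ] ↥(VZ (Gamma0 (N * q))) :=
  ((CosetData.ofHom (S31lib.PET.inclMul N q)).opₗ ℤ ℤ).restrict (p := VZ (Gamma0 N))
    (q := VZ (Gamma0 (N * q))) (fun _ hφ => res_isParabolicHom hφ)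

@[simp] theorem resL_coe (v : ↥(VZ (Gamma0 N))) :
    ((resL N q v : ↥(VZ (Gamma0 (N * q)))) : H (Gamma0 (N * q)) ℤ) = res N q ℤ v.1 := rfl

/-- the second degeneracy map `L_N → L_{N q}` -/
def degL : ↥(VZ (Gamma0 N)) →ₗ[ℤ] ↥(VZ (Gamma0 (N * q))) :=
  ((CosetData.ofHom (conjDelta hqN)).opₗ ℤ ℤ).restrict (p := VZ (Gamma0 N))
    (q := VZ (Gamma0 (N * q))) (fun _ hφ => deg_isParabolicHom hqN hφ)

@[simp] theorem degL_coe (v : ↥(VZ (Gamma0 N))) :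
    ((degL hqN v : ↥(VZ (Gamma0 (N * q)))) : H (Gamma0 (N * q)) ℤ) = deg hqN ℤ v.1 := rfl

/-- the transfer `L_{N q} → L_N` -/
def coresAL : ↥(VZ (Gamma0 (N * q))) →ₗ[ℤ] ↥(VZ (Gamma0 N)) :=
  ((coresAData hqN).opₗ ℤ ℤ).restrict (p := VZ (Gamma0 (N * q)))
    (q := VZ (Gamma0 N)) (fun _ hφ => coresA_isParabolicHom hqN hφ)

@[simp] theorem coresAL_coe (v : ↥(VZ (Gamma0 (N * q)))) :
    ((coresAL hqN v : ↥(VZ (Gamma0 N))) : H (Gamma0 N) ℤ) = coresA hqN ℤ v.1 := rfl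

variable (x y z w : ℤ) (h : (q : ℤ) * x * w - (N : ℤ) * y * z = 1)

/-- the Atkin–Lehner operator on `L_{N q}` -/
def alWL : Module.End ℤ ↥(VZ (Gamma0 (N * q))) :=
  ((CosetData.ofHom (alConjMulEquiv x y z w h).toMonoidHom).opₗ ℤ ℤ).restrict
    (p := VZ (Gamma0 (N * q))) (q := VZ (Gamma0 (N * q)))
    (fun _ hφ => alW_isParabolicHom x y z w h hφ)

@[simp] theorem alWL_coe (v : ↥(VZ (Gamma0 (N * q)))) :
    ((alWL x y z w h v : ↥(VZ (Gamma0 (N * q)))) : H (Gamma0 (N * q)) ℤ) =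
      alW x y z w h ℤ v.1 := rfl

/-- the second transfer `L_{N q} → L_N`, `coresB = coresA ∘ w` -/
def coresBL : ↥(VZ (Gamma0 (N * q))) →ₗ[ℤ] ↥(VZ (Gamma0 N)) :=
  (coresAL hqN).comp (alWL x y z w h)

@[simp] theorem coresBL_coe (v : ↥(VZ (Gamma0 (N * q)))) :
    ((coresBL hqN x y z w h v : ↥(VZ (Gamma0 N))) : H (Gamma0 N) ℤ) =
      coresB hqN x y z w h ℤ v.1 := rfl

theorem coresBL_def (v : ↥(VZ (Gamma0 (N * q)))) :
    coresBL hqN x y z w h v = coresAL hqN (alWL x y z w h v) := rfl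

/-! ### Identities -/

theorem alWL_alWL (v : ↥(VZ (Gamma0 (N * q)))) : alWL x y z w h (alWL x y z w h v) = v :=
  Subtype.ext (alW_alW x y z w h v.1)

theorem alWL_degL (a : ↥(VZ (Gamma0 N))) : alWL x y z w h (degL hqN a) = resL N q a :=
  Subtype.ext (alW_deg hqN x y z w h a.1)

theorem alWL_resL (a : ↥(VZ (Gamma0 N))) : alWL x y z w h (resL N q a) = degL hqN a :=
  Subtype.ext (alW_res hqN x y z w h a.1)

theorem coresAL_resL (a : ↥(VZ (Gamma0 N))) : coresAL hqN (resL N q a) = ((q : ℤ) + 1) • a := by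
  apply Subtype.ext
  rw [coresAL_coe, resL_coe, coresA_res, Submodule.coe_smul]
  rw [← natCast_zsmul]
  push_cast
  rfl

theorem coresAL_degL (a : ↥(VZ (Gamma0 N))) :
    coresAL hqN (degL hqN a) = tL (Fact.out : q.Prime) hqN a :=
  Subtype.ext (coresA_deg hqN a.1)

theorem coresBL_degL (a : ↥(VZ (Gamma0 N))) :
    coresBL hqN x y z w h (degL hqN a) = ((q : ℤ) + 1) • a := by
  rw [coresBL_def, alWL_degL hqN x y z w h, coresAL_resL]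

theorem coresBL_resL (a : ↥(VZ (Gamma0 N))) :
    coresBL hqN x y z w h (resL N q a) = tL (Fact.out : q.Prime) hqN a := by
  rw [coresBL_def, alWL_resL hqN x y z w h, coresAL_degL]

/-! ### Commutation with `T_ℓ`, `ℓ ∤ N q` -/

variable {ℓ : ℕ} (hℓ : ℓ.Prime) (hℓN : ¬ ℓ ∣ N) (hℓNq : ¬ ℓ ∣ N * q)

theorem resL_tL (a : ↥(VZ (Gamma0 N))) :
    resL N q (tL hℓ hℓN a) = tL hℓ hℓNq (resL N q a) := by
  have : Fact ℓ.Prime := ⟨hℓ⟩
  exact Subtype.ext (res_heckeT hℓN hℓNq a.1)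

theorem degL_tL (a : ↥(VZ (Gamma0 N))) :
    degL hqN (tL hℓ hℓN a) = tL hℓ hℓNq (degL hqN a) := by
  have : Fact ℓ.Prime := ⟨hℓ⟩
  exact Subtype.ext (deg_heckeT hqN hℓN hℓNq a.1)

theorem coresAL_tL (b : ↥(VZ (Gamma0 (N * q)))) :
    coresAL hqN (tL hℓ hℓNq b) = tL hℓ hℓN (coresAL hqN b) := by
  have : Fact ℓ.Prime := ⟨hℓ⟩
  exact Subtype.ext (coresA_heckeT hqN hℓN hℓNq b.1)

include hℓN in
theorem alWL_tL (b : ↥(VZ (Gamma0 (N * q)))) :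
    alWL x y z w h (tL hℓ hℓNq b) = tL hℓ hℓNq (alWL x y z w h b) := by
  have : Fact ℓ.Prime := ⟨hℓ⟩
  exact Subtype.ext (alW_heckeT hℓN hℓNq x y z w h b.1)

theorem coresBL_tL (b : ↥(VZ (Gamma0 (N * q)))) :
    coresBL hqN x y z w h (tL hℓ hℓNq b) = tL hℓ hℓN (coresBL hqN x y z w h b) := by
  rw [coresBL_def, alWL_tL x y z w h hℓ hℓN hℓNq, coresAL_tL hqN hℓ hℓN hℓNq, ← coresBL_def]

/-! ### The packaged maps `α`, `β` and `T_ℓ × T_ℓ` -/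

/-- `α (a₁, a₂) = res a₁ + deg a₂` -/
def alphaL : (↥(VZ (Gamma0 N)) × ↥(VZ (Gamma0 N))) →ₗ[ℤ] ↥(VZ (Gamma0 (N * q))) :=
  (resL N q).coprod (degL hqN)

@[simp] theorem alphaL_apply (a : ↥(VZ (Gamma0 N)) × ↥(VZ (Gamma0 N))) :
    alphaL hqN a = resL N q a.1 + degL hqN a.2 := rfl

/-- `β b = (coresA b, coresB b)` -/
def betaL : ↥(VZ (Gamma0 (N * q))) →ₗ[ℤ] (↥(VZ (Gamma0 N)) × ↥(VZ (Gamma0 N))) :=
  (coresAL hqN).prod (coresBL hqN x y z w h)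

@[simp] theorem betaL_apply (b : ↥(VZ (Gamma0 (N * q)))) :
    betaL hqN x y z w h b = (coresAL hqN b, coresBL hqN x y z w h b) := rfl

/-- `T_ℓ × T_ℓ` on `L_N × L_N` -/
def tLL : Module.End ℤ (↥(VZ (Gamma0 N)) × ↥(VZ (Gamma0 N))) :=
  (tL hℓ hℓN).prodMap (tL hℓ hℓN)

@[simp] theorem tLL_apply (a : ↥(VZ (Gamma0 N)) × ↥(VZ (Gamma0 N))) :
    tLL hℓ hℓN a = (tL hℓ hℓN a.1, tL hℓ hℓN a.2) := rfl

/-- `hα` of the skeleton -/
theorem alphaL_tLL (a : ↥(VZ (Gamma0 N)) × ↥(VZ (Gamma0 N))) :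
    alphaL hqN (tLL hℓ hℓN a) = tL hℓ hℓNq (alphaL hqN a) := by
  rw [alphaL_apply, alphaL_apply, tLL_apply, map_add, resL_tL hℓ hℓN hℓNq,
    degL_tL hqN hℓ hℓN hℓNq]

/-- `hβ` of the skeleton -/
theorem betaL_tL (b : ↥(VZ (Gamma0 (N * q)))) :
    betaL hqN x y z w h (tL hℓ hℓNq b) = tLL hℓ hℓN (betaL hqN x y z w h b) := by
  rw [betaL_apply, betaL_apply, tLL_apply, coresAL_tL hqN hℓ hℓN hℓNq,
    coresBL_tL hqN x y z w h hℓ hℓN hℓNq]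

/-- `β α = [[q + 1, T_q], [T_q, q + 1]]` -/
theorem betaL_alphaL (a : ↥(VZ (Gamma0 N)) × ↥(VZ (Gamma0 N))) :
    betaL hqN x y z w h (alphaL hqN a) =
      (((q : ℤ) + 1) • a.1 + tL (Fact.out : q.Prime) hqN a.2,
        tL (Fact.out : q.Prime) hqN a.1 + ((q : ℤ) + 1) • a.2) := by
  rw [betaL_apply, alphaL_apply, map_add, map_add, coresAL_resL, coresAL_degL, coresBL_resL,
    coresBL_degL]

end Level

end Fermat.Agent.S41lib.BR
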