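/-
S41lib / BR / LatticeComm (helper1), brick X1, part 2.

The Hecke operators `T_ℓ`, `T_ℓ'` (`ℓ, ℓ' ∤ M`) commute on the parabolic classes of `Γ₀(M)` with
complex coefficients (through the Eichler–Shimura isomorphism S21 and the commutativity of the
Hecke operators on cusp forms), hence on the lattice `L_M` (`ℤ → ℂ` is injective).
-/
import Mathlib
import Fermat.Agent.S41lib.BR.Lattice
import Fermat.Agent.S41lib.HC.BridgeMain

set_option autoImplicit false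
set_option linter.unusedSectionVars false

noncomputable section

namespace Fermat.Agent.S41lib.BR

open CongruenceSubgroup ModularCurve ModularCurve.Period
open Fermat.Agent.S41lib.HC Fermat.Agent.S16lib.LG
open scoped MatrixGroups

section T

variable {M ℓ ℓ' : ℕ} [NeZero M] (hℓ : ℓ.Prime) (hℓM : ¬ ℓ ∣ M) (hℓ' : ℓ'.Prime) (hℓ'M : ¬ ℓ' ∣ M)

/-- `T_ℓ T_ℓ' = T_ℓ' T_ℓ` on complex parabolic classes -/
theorem heckeT_comm_of_isParabolicHom [Fact ℓ.Prime] [Fact ℓ'.Prime] {v : H (Gamma0 M) ℂ}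
    (hv : IsParabolicHom (Gamma0 M) v) :
    heckeT hℓM ℂ (heckeT hℓ'M ℂ v) = heckeT hℓ'M ℂ (heckeT hℓM ℂ v) := by
  have hv' : v ∈ parabolicHoms ℂ (Gamma0 M) ℂ := hv
  rw [← (Fermat.Agent.S21.result M).2] at hv'
  obtain ⟨⟨f, g⟩, rfl⟩ := hv'
  have hℓ : ℓ.Prime := Fact.out
  have hℓ' : ℓ'.Prime := Fact.out
  rw [heckeT_periodHomPair hℓ' hℓ'M, heckeT_periodHomPair hℓ hℓM, heckeT_periodHomPair hℓ hℓM,
    heckeT_periodHomPair hℓ' hℓ'M]
  have hc := (CuspForm.heckeTLin_comm 2 hℓ hℓM hℓ' hℓ'M).eq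
  have hf := LinearMap.congr_fun hc f
  have hg := LinearMap.congr_fun hc g
  simp only [Module.End.mul_apply] at hf hg
  rw [hf, hg]

/-- `T_ℓ T_ℓ' = T_ℓ' T_ℓ` on integral parabolic classes -/
theorem heckeT_comm_int [Fact ℓ.Prime] [Fact ℓ'.Prime] {v : H (Gamma0 M) ℤ}
    (hv : IsParabolicHom (Gamma0 M) v) :
    heckeT hℓM ℤ (heckeT hℓ'M ℤ v) = heckeT hℓ'M ℤ (heckeT hℓM ℤ v) := by
  apply coeff_injective (Gamma0 M) (Int.castAddHom ℂ) Int.cast_injective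
  rw [← heckeT_coeff, ← heckeT_coeff, ← heckeT_coeff, ← heckeT_coeff]
  exact heckeT_comm_of_isParabolicHom hℓM hℓ'M (coeff_isParabolicHom _ _ hv)

/-- the Hecke operators on the lattice `L_M` commute -/
theorem tL_comm : Commute (tL hℓ hℓM) (tL hℓ' hℓ'M) := by
  have : Fact ℓ.Prime := ⟨hℓ⟩
  have : Fact ℓ'.Prime := ⟨hℓ'⟩
  apply LinearMap.ext
  intro v
  apply Subtype.ext
  exact heckeT_comm_int hℓM hℓ'M v.2

/-- the Hecke operators `T_ℓ × T_ℓ` on `L_M × L_M` commute -/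
theorem tLL_comm : Commute (tLL hℓ hℓM) (tLL hℓ' hℓ'M) := by
  apply LinearMap.ext
  rintro ⟨a₁, a₂⟩
  have h := tL_comm hℓ hℓM hℓ' hℓ'M
  have h1 := LinearMap.congr_fun h.eq a₁
  have h2 := LinearMap.congr_fun h.eq a₂
  simp only [Module.End.mul_apply] at h1 h2
  simp only [Module.End.mul_apply, tLL_apply]
  rw [h1, h2]

end T

end Fermat.Agent.S41lib.BR
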