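/-
S41lib / BR / NewVec (helper1), brick X4.

The complex space `newV` of `q`-new parabolic classes of level `N q`
(`v ∈ Hom_par(Γ₀(N q), ℂ)` with `coresA v = 0` and `coresB v = 0`), its Hecke operators `tV`
(commuting, integral over `ℤ`), the bridge hypothesis of `SK.level_raising_family`, and the passage
from an eigenvector in `newV` to a `q`-new eigenform.
-/
import Mathlib
import Fermat.Agent.S41lib.BR.LatticeComm
import Fermat.Agent.S41lib.SK.Family

set_option autoImplicit false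
set_option linter.unusedSectionVars false

noncomputable section

namespace Fermat.Agent.S41lib.BR

open CongruenceSubgroup ModularCurve ModularCurve.Period
open Fermat.Agent.S41lib.HC Fermat.Agent.S16lib.LG Fermat.Agent.S41lib.NEW
open scoped MatrixGroups

/-! ### Polynomials in operators related by an additive relation -/

section Alg

variable {R₁ R₂ : Type*} [CommRing R₁] [CommRing R₂]
  {B V : Type*} [AddCommGroup B] [Module R₁ B] [AddCommGroup V] [Module R₂ V]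

/-- If an additive relation `R ⊆ B × V` is preserved by the pair `(tB, tV)`, it is preserved by
`(P(tB), P(tV))` for every integer polynomial `P`. -/
theorem aeval_rel (tB : Module.End R₁ B) (tV : Module.End R₂ V) (R : AddSubgroup (B × V))
    (hR : ∀ (k : B) (v : V), (k, v) ∈ R → (tB k, tV v) ∈ R)
    (P : Polynomial ℤ) (k : B) (v : V) (hkv : (k, v) ∈ R) :
    (Polynomial.aeval tB P k, Polynomial.aeval tV P v) ∈ R := by
  have hpow : ∀ (n : ℕ) (k : B) (v : V), (k, v) ∈ R → ((tB ^ n) k, (tV ^ n) v) ∈ R := by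
    intro n
    induction n with
    | zero => intro k v hkv; simpa using hkv
    | succ n ih =>
      intro k v hkv
      rw [pow_succ, pow_succ, Module.End.mul_apply, Module.End.mul_apply]
      exact ih _ _ (hR k v hkv)
  induction P using Polynomial.induction_on' with
  | add p p' hp hp' =>
    rw [map_add, map_add, LinearMap.add_apply, LinearMap.add_apply]
    exact R.add_mem hp hp'
  | monomial n c =>
    rw [Polynomial.aeval_monomial, Polynomial.aeval_monomial, Module.End.mul_apply,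
      Module.End.mul_apply, eq_intCast, eq_intCast, Module.End.intCast_apply,
      Module.End.intCast_apply]
    exact R.zsmul_mem (hpow n k v hkv) c

/-- The same for the polynomial action of a commuting family (helper4's `SK.polyHom`). -/
theorem polyHom_rel {ι : Type*} (tB : ι → Module.End R₁ B) (tV : ι → Module.End R₂ V)
    (hcB : ∀ i j, Commute (tB i) (tB j)) (hcV : ∀ i j, Commute (tV i) (tV j))
    (R : AddSubgroup (B × V))
    (hR : ∀ (i : ι) (k : B) (v : V), (k, v) ∈ R → (tB i k, tV i v) ∈ R)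
    (t : MvPolynomial ι ℤ) (k : B) (v : V) (hkv : (k, v) ∈ R) :
    (SK.polyHom tB hcB t k, SK.polyHom tV hcV t v) ∈ R := by
  induction t using MvPolynomial.induction_on generalizing k v with
  | C c =>
    have h1 : (MvPolynomial.C c : MvPolynomial ι ℤ) = (c : MvPolynomial ι ℤ) := by simp
    rw [h1, map_intCast, map_intCast, Module.End.intCast_apply, Module.End.intCast_apply]
    exact R.zsmul_mem hkv c
  | add p p' hp hp' =>
    rw [map_add, map_add, LinearMap.add_apply, LinearMap.add_apply]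
    exact R.add_mem (hp k v hkv) (hp' k v hkv)
  | mul_X p i hp =>
    rw [map_mul, map_mul, Module.End.mul_apply, Module.End.mul_apply, SK.polyHom_X, SK.polyHom_X]
    exact hp _ _ (hR i k v hkv)

end Alg

/-! ### The ambient complex Hecke operators -/

section TC

variable {M ℓ : ℕ} (hℓ : ℓ.Prime) (hℓM : ¬ ℓ ∣ M)

/-- `T_ℓ` on `Hom(Γ₀(M), ℂ)`, as a `ℂ`-linear map -/
def tC : Module.End ℂ (H (Gamma0 M) ℂ) :=
  haveI : Fact ℓ.Prime := ⟨hℓ⟩
  (tData hℓM).opₗ ℂ ℂ

theorem tC_apply [Fact ℓ.Prime] (v : H (Gamma0 M) ℂ) : tC hℓ hℓM v = heckeT hℓM ℂ v := rfl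

/-- integer polynomials in `T_ℓ` commute with the change of coefficients `ℤ → ℂ` -/
theorem aeval_tC_coeff (P : Polynomial ℤ) (k : ↥(VZ (Gamma0 M))) :
    Polynomial.aeval (tC hℓ hℓM) P (coeff (Gamma0 M) (Int.castAddHom ℂ) k.1) =
      coeff (Gamma0 M) (Int.castAddHom ℂ) (Polynomial.aeval (tL hℓ hℓM) P k).1 := by
  have : Fact ℓ.Prime := ⟨hℓ⟩
  let R : AddSubgroup (↥(VZ (Gamma0 M)) × H (Gamma0 M) ℂ) :=
    AddMonoidHom.eqLocus (AddMonoidHom.snd _ _)
      ((coeff (Gamma0 M) (Int.castAddHom ℂ)).comp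
        ((VZ (Gamma0 M)).subtype.toAddMonoidHom.comp (AddMonoidHom.fst _ _)))
  have hR : ∀ (k : ↥(VZ (Gamma0 M))) (v : H (Gamma0 M) ℂ), (k, v) ∈ R →
      (tL hℓ hℓM k, tC hℓ hℓM v) ∈ R := by
    intro k v hkv
    have hkv' : v = coeff (Gamma0 M) (Int.castAddHom ℂ) k.1 := hkv
    show tC hℓ hℓM v = coeff (Gamma0 M) (Int.castAddHom ℂ) (tL hℓ hℓM k).1
    rw [hkv', tC_apply, tL_coe, heckeT_coeff]
  exact aeval_rel (tL hℓ hℓM) (tC hℓ hℓM) R hR P k _ rfl

/-- an integer polynomial killing `T_ℓ` on the lattice kills `T_ℓ` on the complex parabolic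
classes -/
theorem aeval_tC_eq_zero [NeZero M] (P : Polynomial ℤ) (hP : Polynomial.aeval (tL hℓ hℓM) P = 0)
    {v : H (Gamma0 M) ℂ} (hv : IsParabolicHom (Gamma0 M) v) :
    Polynomial.aeval (tC hℓ hℓM) P v = 0 := by
  have hv' : v ∈ spanVC (Gamma0 M) := parabolicHoms_complex_le_spanVC (Gamma0 M) hv
  have hle : spanVC (Gamma0 M) ≤ LinearMap.ker (Polynomial.aeval (tC hℓ hℓM) P) := by
    unfold spanVC
    rw [Submodule.span_le]
    rintro _ ⟨i, rfl⟩
    rw [SetLike.mem_coe, LinearMap.mem_ker]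
    have h1 := aeval_tC_coeff hℓ hℓM P (vBasis (Gamma0 M) i)
    rw [hP, LinearMap.zero_apply] at h1
    rw [Submodule.coe_zero, map_zero] at h1
    exact h1
  exact hle hv'

end TC

/-! ### The space of `q`-new classes -/

section NewV

variable {N q : ℕ} [NeZero N] [Fact q.Prime] (hqN : ¬ q ∣ N)
  (x y z w : ℤ) (h : (q : ℤ) * x * w - (N : ℤ) * y * z = 1)

/-- the complex space of `q`-new parabolic classes of level `N q` -/
def newV : Submodule ℂ (H (Gamma0 (N * q)) ℂ) :=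
  parabolicHoms ℂ (Gamma0 (N * q)) ℂ ⊓ LinearMap.ker ((coresAData hqN).opₗ ℂ ℂ) ⊓
    LinearMap.ker (((coresAData hqN).opₗ ℂ ℂ).comp
      ((CosetData.ofHom (alConjMulEquiv x y z w h).toMonoidHom).opₗ ℂ ℂ))

theorem mem_newV {v : H (Gamma0 (N * q)) ℂ} :
    v ∈ newV hqN x y z w h ↔ IsParabolicHom (Gamma0 (N * q)) v ∧ coresA hqN ℂ v = 0 ∧
      coresB hqN x y z w h ℂ v = 0 :=
  ⟨fun hv => ⟨hv.1.1, hv.1.2, hv.2⟩, fun hv => ⟨⟨hv.1, hv.2.1⟩, hv.2.2⟩⟩

instance newV_finiteDimensional : FiniteDimensional ℂ ↥(newV hqN x y z w h) := by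
  have : NeZero (N * q) := neZero_mul N q
  have hle : newV hqN x y z w h ≤ spanVC (Gamma0 (N * q)) :=
    fun v hv => parabolicHoms_complex_le_spanVC _ ((mem_newV hqN x y z w h).mp hv).1
  have : FiniteDimensional ℂ ↥(spanVC (Gamma0 (N * q))) :=
    FiniteDimensional.span_of_finite ℂ (Set.finite_range _)
  exact Submodule.finiteDimensional_of_le hle

/-- the complexification of an integral class killed by `β` is `q`-new -/
theorem coeff_mem_newV {k : ↥(VZ (Gamma0 (N * q)))} (hk : betaL hqN x y z w h k = 0) :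
    coeff (Gamma0 (N * q)) (Int.castAddHom ℂ) k.1 ∈ newV hqN x y z w h := by
  rw [betaL_apply, Prod.mk_eq_zero] at hk
  have hA : coresA hqN ℤ k.1 = 0 := by
    have := congrArg Subtype.val hk.1
    simpa using this
  have hB : coresB hqN x y z w h ℤ k.1 = 0 := by
    have := congrArg Subtype.val hk.2
    simpa using this
  rw [mem_newV]
  refine ⟨coeff_isParabolicHom _ _ k.2, ?_, ?_⟩
  · rw [coresA_coeff, hA, map_zero]
  · rw [coresB_coeff, hB, map_zero]

variable {ℓ ℓ' : ℕ} (hℓ : ℓ.Prime) (hℓNq : ¬ ℓ ∣ N * q) (hℓ' : ℓ'.Prime) (hℓ'Nq : ¬ ℓ' ∣ N * q)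

theorem tC_mem_newV {v : H (Gamma0 (N * q)) ℂ} (hv : v ∈ newV hqN x y z w h) :
    tC hℓ hℓNq v ∈ newV hqN x y z w h := by
  have : Fact ℓ.Prime := ⟨hℓ⟩
  have hℓN : ¬ ℓ ∣ N := fun hd => hℓNq (Dvd.dvd.mul_right hd q)
  obtain ⟨h1, h2, h3⟩ := (mem_newV hqN x y z w h).mp hv
  rw [mem_newV, tC_apply]
  refine ⟨heckeT_isParabolicHom hℓNq h1, ?_, ?_⟩
  · rw [coresA_heckeT hqN hℓN hℓNq, h2, map_zero]
  · rw [coresB_heckeT hqN hℓN hℓNq, h3, map_zero]

/-- `T_ℓ` on `newV` -/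
def tV : Module.End ℂ ↥(newV hqN x y z w h) :=
  (tC hℓ hℓNq).restrict (fun _ hv => tC_mem_newV hqN x y z w h hℓ hℓNq hv)

@[simp] theorem tV_coe (v : ↥(newV hqN x y z w h)) :
    ((tV hqN x y z w h hℓ hℓNq v : ↥(newV hqN x y z w h)) : H (Gamma0 (N * q)) ℂ) =
      tC hℓ hℓNq v.1 := rfl

/-- the Hecke operators on `newV` commute -/
theorem tV_comm : Commute (tV hqN x y z w h hℓ hℓNq) (tV hqN x y z w h hℓ' hℓ'Nq) := by
  have : Fact ℓ.Prime := ⟨hℓ⟩
  have : Fact ℓ'.Prime := ⟨hℓ'⟩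
  have : NeZero (N * q) := neZero_mul N q
  apply LinearMap.ext
  intro v
  apply Subtype.ext
  exact heckeT_comm_of_isParabolicHom hℓNq hℓ'Nq ((mem_newV hqN x y z w h).mp v.2).1

/-- the Hecke operators on `newV` are integral over `ℤ` -/
theorem tV_isIntegral : IsIntegral ℤ (tV hqN x y z w h hℓ hℓNq) := by
  have : NeZero (N * q) := neZero_mul N q
  obtain ⟨P, hPm, hP⟩ := LinearMap.exists_monic_and_aeval_eq_zero ℤ (tL hℓ hℓNq)
  refine ⟨P, hPm, ?_⟩
  rw [← Polynomial.aeval_def]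
  apply LinearMap.ext
  intro v
  apply Subtype.ext
  -- compare `P (tV)` on `newV` with `P (tC)` on the ambient space
  let R : AddSubgroup (↥(newV hqN x y z w h) × H (Gamma0 (N * q)) ℂ) :=
    AddMonoidHom.eqLocus (AddMonoidHom.snd _ _)
      ((newV hqN x y z w h).subtype.toAddMonoidHom.comp (AddMonoidHom.fst _ _))
  have hR : ∀ (k : ↥(newV hqN x y z w h)) (u : H (Gamma0 (N * q)) ℂ), (k, u) ∈ R →
      (tV hqN x y z w h hℓ hℓNq k, tC hℓ hℓNq u) ∈ R := by
    intro k u hku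
    have hku' : u = k.1 := hku
    show tC hℓ hℓNq u = (tV hqN x y z w h hℓ hℓNq k).1
    rw [hku', tV_coe]
  have h1 : Polynomial.aeval (tC hℓ hℓNq) P v.1 =
      (Polynomial.aeval (tV hqN x y z w h hℓ hℓNq) P v).1 :=
    aeval_rel (tV hqN x y z w h hℓ hℓNq) (tC hℓ hℓNq) R hR P v v.1 rfl
  rw [← h1, aeval_tC_eq_zero hℓ hℓNq P hP ((mem_newV hqN x y z w h).mp v.2).1]
  rfl

/-! ### The bridge hypothesis of `SK.level_raising_family` -/

/-- **The bridge**: an integer polynomial in the Hecke operators vanishing on `newV` kills the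
kernel of `β` in the lattice `L_{N q}`. -/
theorem hbridge {ι : Type*} (ℓ : ι → ℕ) (hℓ : ∀ i, (ℓ i).Prime) (hℓNq : ∀ i, ¬ ℓ i ∣ N * q)
    (hcB : ∀ i j, Commute (tL (hℓ i) (hℓNq i)) (tL (hℓ j) (hℓNq j)))
    (hcV : ∀ i j, Commute (tV hqN x y z w h (hℓ i) (hℓNq i)) (tV hqN x y z w h (hℓ j) (hℓNq j))) :
    ∀ t : MvPolynomial ι ℤ,
      SK.polyHom (fun i => tV hqN x y z w h (hℓ i) (hℓNq i)) hcV t = 0 →
      ∀ k : ↥(VZ (Gamma0 (N * q))), betaL hqN x y z w h k = 0 →
        SK.polyHom (fun i => tL (hℓ i) (hℓNq i)) hcB t k = 0 := by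
  intro t ht k hk
  let R : AddSubgroup (↥(VZ (Gamma0 (N * q))) × ↥(newV hqN x y z w h)) :=
    ((betaL hqN x y z w h).toAddMonoidHom.comp (AddMonoidHom.fst _ _)).ker ⊓
      AddMonoidHom.eqLocus
        ((newV hqN x y z w h).subtype.toAddMonoidHom.comp (AddMonoidHom.snd _ _))
        ((coeff (Gamma0 (N * q)) (Int.castAddHom ℂ)).comp
          ((VZ (Gamma0 (N * q))).subtype.toAddMonoidHom.comp (AddMonoidHom.fst _ _)))
  have hR : ∀ (i : ι) (k : ↥(VZ (Gamma0 (N * q)))) (v : ↥(newV hqN x y z w h)), (k, v) ∈ R →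
      (tL (hℓ i) (hℓNq i) k, tV hqN x y z w h (hℓ i) (hℓNq i) v) ∈ R := by
    intro i k v hkv
    have : Fact (ℓ i).Prime := ⟨hℓ i⟩
    have hℓN : ¬ ℓ i ∣ N := fun hd => hℓNq i (Dvd.dvd.mul_right hd q)
    obtain ⟨h1, h2⟩ := hkv
    have h1 : betaL hqN x y z w h k = 0 := h1
    have h2 : v.1 = coeff (Gamma0 (N * q)) (Int.castAddHom ℂ) k.1 := h2
    refine ⟨?_, ?_⟩
    · show betaL hqN x y z w h (tL (hℓ i) (hℓNq i) k) = 0
      rw [betaL_tL hqN x y z w h (hℓ i) hℓN (hℓNq i), h1, map_zero]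
    · show (tV hqN x y z w h (hℓ i) (hℓNq i) v).1 =
        coeff (Gamma0 (N * q)) (Int.castAddHom ℂ) (tL (hℓ i) (hℓNq i) k).1
      rw [tV_coe, h2, tC_apply, tL_coe, heckeT_coeff]
  have hkv : (k, (⟨_, coeff_mem_newV hqN x y z w h hk⟩ : ↥(newV hqN x y z w h))) ∈ R := ⟨hk, rfl⟩
  have hmem := polyHom_rel (fun i => tL (hℓ i) (hℓNq i))
    (fun i => tV hqN x y z w h (hℓ i) (hℓNq i)) hcB hcV R hR t k _ hkv
  obtain ⟨-, h2⟩ := hmem
  have h2 : (SK.polyHom (fun i => tV hqN x y z w h (hℓ i) (hℓNq i)) hcV t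
      (⟨_, coeff_mem_newV hqN x y z w h hk⟩ : ↥(newV hqN x y z w h))).1 =
      coeff (Gamma0 (N * q)) (Int.castAddHom ℂ)
        (SK.polyHom (fun i => tL (hℓ i) (hℓNq i)) hcB t k).1 := h2
  rw [ht, LinearMap.zero_apply, Submodule.coe_zero] at h2
  apply Subtype.ext
  apply coeff_injective (Gamma0 (N * q)) (Int.castAddHom ℂ) Int.cast_injective
  rw [← h2, Submodule.coe_zero, map_zero]

/-! ### From eigenvectors in `newV` to `q`-new eigenforms -/

/-- **An eigenvector of the Hecke operators in `newV` gives a nonzero `q`-new cusp form with the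
same eigenvalues.** -/
theorem exists_newSub_eigen {ι : Type*} (ℓ : ι → ℕ) (hℓ : ∀ i, (ℓ i).Prime)
    (hℓNq : ∀ i, ¬ ℓ i ∣ N * q) (lam : ι → ℂ) (v : ↥(newV hqN x y z w h)) (hv : v ≠ 0)
    (heig : ∀ i, tV hqN x y z w h (hℓ i) (hℓNq i) v = lam i • v) :
    ∃ f : CuspForm (Gamma0 (N * q)) 2, f ∈ newSub x y z w h ∧ f ≠ 0 ∧
      ∀ i, CuspForm.heckeTLin 2 (hℓ i) (hℓNq i) f = lam i • f := by
  have : NeZero (N * q) := neZero_mul N q
  obtain ⟨h1, h2, h3⟩ := (mem_newV hqN x y z w h).mp v.2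
  have hpar : v.1 ∈ parabolicHoms ℂ (Gamma0 (N * q)) ℂ := h1
  rw [← (Fermat.Agent.S21.result (N * q)).2] at hpar
  obtain ⟨⟨f, g⟩, hfg⟩ := hpar
  have hinj := (Fermat.Agent.S21.result (N * q)).1
  have hnew := (cores_periodHomPair_eq_zero_iff x y z w h hqN f g).mp (by
    rw [hfg]; exact ⟨h2, h3⟩)
  have hT : ∀ i, CuspForm.heckeTLin 2 (hℓ i) (hℓNq i) f = lam i • f ∧
      CuspForm.heckeTLin 2 (hℓ i) (hℓNq i) g = lam i • g := by
    intro i
    have : Fact (ℓ i).Prime := ⟨hℓ i⟩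
    have e1 := congrArg Subtype.val (heig i)
    rw [tV_coe, tC_apply, Submodule.coe_smul, ← hfg, heckeT_periodHomPair (hℓ i) (hℓNq i),
      ← map_smul] at e1
    have e2 := hinj e1
    rw [Prod.smul_mk, Prod.mk.injEq] at e2
    exact e2
  have hne : f ≠ 0 ∨ g ≠ 0 := by
    by_contra hcon
    rw [not_or, not_not, not_not] at hcon
    apply hv
    apply Subtype.ext
    rw [← hfg, hcon.1, hcon.2, Submodule.coe_zero]
    exact map_zero _
  rcases hne with hf | hg
  · exact ⟨f, hnew.1, hf, fun i => (hT i).1⟩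
  · exact ⟨g, hnew.2, hg, fun i => (hT i).2⟩

end NewV

end Fermat.Agent.S41lib.BR
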