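/-
S41lib / BR / EigenClass (helper4): brick X3 (on helper1's `BR/Lattice.lean`, origin/helper1 e5edcc9).

For a normalised eigenform `f` of level `N` the period class `w = periodHomPair N (f, 0)` is a
non-zero element of `Hom(Γ₀(N), ℂ)` which
* is an eigenvector of every `T_ℓ` (`ℓ ∤ N` prime) with eigenvalue `a_ℓ(f)`,
* lies in the `ℂ`-span of the image of the lattice `VZ (Γ₀(N)) = Hom_par(Γ₀(N), ℤ)`.
Together with the `ℤ`-linear map `latToC : Lat Γ → Hom(Γ, ℂ)` intertwining `tL` with the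
`ℂ`-linear Hecke operator `heckeTC`, this is the input of the reduction brick `SK/ModP`.
-/
import Mathlib
import Fermat.Agent.S41lib.BR.Lattice
import Fermat.Agent.S41lib.HC.BridgeMain
import Fermat.Agent.S29lib.P.Eigen

set_option autoImplicit false
set_option linter.unusedSectionVars false

noncomputable section

namespace Fermat.Agent.S41lib.BR.EC

open CongruenceSubgroup Matrix.SpecialLinearGroup ModularCurve ModularCurve.Period
open Fermat.Agent.S41lib.HC Fermat.Agent.S41lib.BR Fermat.Agent.S16lib.LG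
open scoped MatrixGroups

/-! ### The complexification map on the lattice -/

/-- complexification `Hom_par(Γ, ℤ) → Hom(Γ, ℂ)` as a `ℤ`-linear map -/
def latToC (Γ : Subgroup SL(2, ℤ)) : ↥(parabolicHoms ℤ Γ ℤ) →ₗ[ℤ] H Γ ℂ :=
  (coeff Γ (Int.castAddHom ℂ)).toIntLinearMap ∘ₗ (parabolicHoms ℤ Γ ℤ).subtype

@[simp] theorem latToC_apply (Γ : Subgroup SL(2, ℤ)) (φ : ↥(parabolicHoms ℤ Γ ℤ)) (γ : Additive Γ) :
    latToC Γ φ γ = ((φ.1 γ : ℤ) : ℂ) := rfl

theorem latToC_eq_coeff (Γ : Subgroup SL(2, ℤ)) (φ : ↥(parabolicHoms ℤ Γ ℤ)) :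
    latToC Γ φ = coeff Γ (Int.castAddHom ℂ) φ.1 := rfl

theorem latToC_injective (Γ : Subgroup SL(2, ℤ)) : Function.Injective (latToC Γ) := by
  intro φ ψ h
  apply Subtype.ext
  exact coeff_injective Γ (Int.castAddHom ℂ) Int.cast_injective h

theorem latToC_mem_parabolicHoms (Γ : Subgroup SL(2, ℤ)) (φ : ↥(parabolicHoms ℤ Γ ℤ)) :
    latToC Γ φ ∈ parabolicHoms ℂ Γ ℂ :=
  coeff_isParabolicHom Γ (Int.castAddHom ℂ) φ.2

/-- every complex parabolic class is a complex combination of integral ones -/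
theorem parabolicHoms_le_span_latToC (Γ : Subgroup SL(2, ℤ)) [Group.FG Γ] :
    parabolicHoms ℂ Γ ℂ ≤ Submodule.span ℂ (Set.range (latToC Γ)) := by
  refine (parabolicHoms_complex_le_spanVC Γ).trans ?_
  refine Submodule.span_mono ?_
  rintro _ ⟨i, rfl⟩
  exact ⟨vBasis Γ i, rfl⟩

theorem span_latToC_eq (Γ : Subgroup SL(2, ℤ)) [Group.FG Γ] :
    Submodule.span ℂ (Set.range (latToC Γ)) = parabolicHoms ℂ Γ ℂ := by
  refine le_antisymm ?_ (parabolicHoms_le_span_latToC Γ)
  rw [Submodule.span_le]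
  rintro _ ⟨φ, rfl⟩
  exact latToC_mem_parabolicHoms Γ φ

/-! ### The complex Hecke operator -/

section T

variable {M ℓ : ℕ} [Fact ℓ.Prime] (hℓ : ℓ.Prime) (hℓM : ¬ ℓ ∣ M)

/-- `T_ℓ` on `Hom(Γ₀(M), ℂ)` as a `ℂ`-linear endomorphism -/
def heckeTC : Module.End ℂ (H (Gamma0 M) ℂ) := (tData hℓM).opₗ ℂ ℂ

@[simp] theorem heckeTC_apply (φ : H (Gamma0 M) ℂ) : heckeTC hℓM φ = heckeT hℓM ℂ φ := rfl

/-- `latToC` intertwines `tL` and `heckeTC` -/
theorem latToC_tL (φ : ↥(VZ (Gamma0 M))) :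
    latToC (Gamma0 M) (tL hℓ hℓM φ) = heckeTC hℓM (latToC (Gamma0 M) φ) := by
  rw [heckeTC_apply, latToC_eq_coeff, latToC_eq_coeff, tL_coe]
  exact (heckeT_coeff (Int.castAddHom ℂ) hℓM φ.1).symm

end T

/-! ### The period class of an eigenform -/

section Eigen

variable {N : ℕ} [NeZero N]

/-- the period class `per(f, 0)` of a cusp form -/
def eigenClass (f : CuspForm (Gamma0 N) 2) : H (Gamma0 N) ℂ := periodHomPair N (f, 0)

theorem eigenClass_mem_parabolicHoms (f : CuspForm (Gamma0 N) 2) :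
    eigenClass f ∈ parabolicHoms ℂ (Gamma0 N) ℂ := by
  rw [← (Fermat.Agent.S21.result N).2]
  exact ⟨(f, 0), rfl⟩

theorem eigenClass_ne_zero {f : CuspForm (Gamma0 N) 2} (hf : f.IsNormalizedEigenform) :
    eigenClass f ≠ 0 := by
  intro h
  have h0 : periodHomPair N (f, 0) = periodHomPair N 0 := by
    rw [map_zero]
    exact h
  have h1 : f = 0 := congrArg Prod.fst ((Fermat.Agent.S21.result N).1 h0)
  have h2 := hf.qCoeff_one
  rw [h1, Fermat.Agent.Helper8.qCoeff_zero'] at h2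
  exact zero_ne_one h2

theorem eigenClass_smul (c : ℂ) (f : CuspForm (Gamma0 N) 2) :
    eigenClass (c • f) = c • eigenClass f := by
  unfold eigenClass
  rw [← map_smul]
  congr 1
  ext <;> simp

/-- **the period class of a normalised eigenform is a `T_ℓ`-eigenvector with eigenvalue `a_ℓ`** -/
theorem heckeT_eigenClass {ℓ : ℕ} [Fact ℓ.Prime] (hℓN : ¬ ℓ ∣ N) {f : CuspForm (Gamma0 N) 2}
    (hf : f.IsNormalizedEigenform) :
    heckeT hℓN ℂ (eigenClass f) = ModularFormClass.qCoeff f ℓ • eigenClass f := by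
  have hℓ : ℓ.Prime := Fact.out
  unfold eigenClass
  rw [heckeT_periodHomPair hℓ hℓN, Fermat.Agent.S29lib.P.heckeTLin_eq_smul hf hℓ hℓN, map_zero,
    ← map_smul]
  congr 1
  ext <;> simp

theorem heckeTC_eigenClass {ℓ : ℕ} [Fact ℓ.Prime] (hℓN : ¬ ℓ ∣ N) {f : CuspForm (Gamma0 N) 2}
    (hf : f.IsNormalizedEigenform) :
    heckeTC hℓN (eigenClass f) = ModularFormClass.qCoeff f ℓ • eigenClass f :=
  heckeT_eigenClass hℓN hf

/-- **the period class lies in the complex span of the lattice** -/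
theorem eigenClass_mem_span (f : CuspForm (Gamma0 N) 2) :
    eigenClass f ∈ Submodule.span ℂ (Set.range (latToC (Gamma0 N))) :=
  parabolicHoms_le_span_latToC (Gamma0 N) (eigenClass_mem_parabolicHoms f)

end Eigen

end Fermat.Agent.S41lib.BR.EC
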