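/-
S41lib / BR / ModPClass (helper4): the vector `x` of `SK.level_raising_family`.

From a normalised eigenform `f` of level `N`, congruent modulo `𝔪 ∋ p` to integers `n i` at the
primes `ℓ i ∤ N` and with `a_q(f)² ≡ (q + 1)²`, we produce `X = (x₁, -ε x₁) ∈ L_N × L_N`
(`L_N = Hom_par(Γ₀(N), ℤ)`, `ε = ±1`) which is
* not divisible by `p`,
* an eigenvector modulo `p` of every `T_{ℓ i} × T_{ℓ i}` with eigenvalue `n i`,
* killed modulo `p` by `β ∘ α = [[q + 1, T_q], [T_q, q + 1]]`.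
-/
import Mathlib
import Fermat.Agent.S41lib.BR.EigenClass
import Fermat.Agent.S41lib.BR.LatticeComm
import Fermat.Agent.S41lib.SK.ModP

set_option autoImplicit false
set_option linter.unusedSectionVars false

noncomputable section

namespace Fermat.Agent.S41lib.BR.MP

open CongruenceSubgroup ModularCurve.Period
open Fermat.Agent.S41lib.HC Fermat.Agent.S41lib.BR Fermat.Agent.S16lib.LG
open scoped MatrixGroups

/-- the sign `ε = ±1` with `a ≡ ε (q + 1)` from `a² ≡ (q + 1)²` modulo a prime ideal -/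
theorem exists_sign {𝔪 : Ideal (integralClosure ℤ ℂ)} (hprime : 𝔪.IsPrime) {q : ℕ}
    {a : integralClosure ℤ ℂ} (h : a ^ 2 - ((q : integralClosure ℤ ℂ) + 1) ^ 2 ∈ 𝔪) :
    ∃ ε : ℤ, (ε = 1 ∨ ε = -1) ∧
      a - ((ε * ((q : ℤ) + 1) : ℤ) : integralClosure ℤ ℂ) ∈ 𝔪 := by
  have hfac : a ^ 2 - ((q : integralClosure ℤ ℂ) + 1) ^ 2 =
      (a - ((q : integralClosure ℤ ℂ) + 1)) * (a + ((q : integralClosure ℤ ℂ) + 1)) := by ring
  rw [hfac] at h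
  rcases hprime.mem_or_mem h with h1 | h1
  · refine ⟨1, Or.inl rfl, ?_⟩
    have : ((1 * ((q : ℤ) + 1) : ℤ) : integralClosure ℤ ℂ) = (q : integralClosure ℤ ℂ) + 1 := by
      push_cast; ring
    rw [this]
    exact h1
  · refine ⟨-1, Or.inr rfl, ?_⟩
    have : a - (((-1) * ((q : ℤ) + 1) : ℤ) : integralClosure ℤ ℂ) =
        a + ((q : integralClosure ℤ ℂ) + 1) := by
      push_cast; ring
    rw [this]
    exact h1

section Vector

variable {N q : ℕ} [NeZero N] [Fact q.Prime] (hqN : ¬ q ∣ N)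
  (x y z w : ℤ) (h : (q : ℤ) * x * w - (N : ℤ) * y * z = 1)

/-- `X = (x₁, -ε x₁)` is killed modulo `p` by `β α` if `T_q x₁ ≡ ε (q + 1) x₁`. -/
theorem betaL_alphaL_pair {p : ℕ} {ε : ℤ} (hε : ε = 1 ∨ ε = -1) (x₁ x' : ↥(VZ (Gamma0 N)))
    (hx' : tL (Fact.out : q.Prime) hqN x₁ - (ε * ((q : ℤ) + 1)) • x₁ = (p : ℤ) • x') :
    betaL hqN x y z w h (alphaL hqN (x₁, (-ε) • x₁)) = (p : ℤ) • ((-ε) • x', x') := by
  have hT : tL (Fact.out : q.Prime) hqN x₁ = (ε * ((q : ℤ) + 1)) • x₁ + (p : ℤ) • x' := by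
    rw [← hx']; abel
  have hε2 : ε * ε = 1 := by rcases hε with rfl | rfl <;> norm_num
  rw [betaL_alphaL]
  simp only [map_smul, hT, Prod.smul_mk]
  refine Prod.ext ?_ ?_
  · show ((q : ℤ) + 1) • x₁ + (-ε) • ((ε * ((q : ℤ) + 1)) • x₁ + (p : ℤ) • x') =
      (p : ℤ) • ((-ε) • x')
    rw [smul_add, smul_smul, smul_smul, smul_smul, ← add_assoc, ← add_smul]
    have e1 : ((q : ℤ) + 1) + -ε * (ε * ((q : ℤ) + 1)) = 0 := by
      have : -ε * (ε * ((q : ℤ) + 1)) = -(ε * ε) * ((q : ℤ) + 1) := by ring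
      rw [this, hε2]; ring
    rw [e1, zero_smul, zero_add, mul_comm]
  · show (ε * ((q : ℤ) + 1)) • x₁ + (p : ℤ) • x' + ((q : ℤ) + 1) • ((-ε) • x₁) = (p : ℤ) • x'
    rw [smul_smul]
    have e2 : ((q : ℤ) + 1) * -ε = -(ε * ((q : ℤ) + 1)) := by ring
    rw [e2, neg_smul]
    abel

/-- `X = (x₁, -ε x₁)` is not divisible by `p` if `x₁` is not. -/
theorem pair_not_dvd {p : ℕ} (ε : ℤ) (x₁ : ↥(VZ (Gamma0 N)))
    (hx₁ : ¬ ∃ x', x₁ = (p : ℤ) • x') :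
    ¬ ∃ a' : ↥(VZ (Gamma0 N)) × ↥(VZ (Gamma0 N)), (x₁, (-ε) • x₁) = (p : ℤ) • a' := by
  rintro ⟨a', ha'⟩
  exact hx₁ ⟨a'.1, congrArg Prod.fst ha'⟩

/-- `X = (x₁, -ε x₁)` is an eigenvector modulo `p` of `T_ℓ × T_ℓ` if `x₁` is one of `T_ℓ`. -/
theorem tLL_pair {p ℓ : ℕ} (hℓ : ℓ.Prime) (hℓN : ¬ ℓ ∣ N) (ε n : ℤ) (x₁ x' : ↥(VZ (Gamma0 N)))
    (hx' : tL hℓ hℓN x₁ - n • x₁ = (p : ℤ) • x') :
    tLL hℓ hℓN (x₁, (-ε) • x₁) - n • (x₁, (-ε) • x₁) = (p : ℤ) • (x', (-ε) • x') := by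
  rw [tLL_apply]
  refine Prod.ext ?_ ?_
  · exact hx'
  · show tL hℓ hℓN ((-ε) • x₁) - n • ((-ε) • x₁) = (p : ℤ) • ((-ε) • x')
    rw [map_smul, smul_comm n, ← smul_sub, hx', smul_comm]

end Vector

/-! ### Complexification preserves linear independence -/

/-- `ℤ`-linearly independent `ℤ`-valued homomorphisms stay linearly independent over `ℂ`. -/
theorem linearIndependent_castC {G κ : Type*} [AddMonoid G] (b : κ → (G →+ ℤ))
    (hb : LinearIndependent ℤ b) :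
    LinearIndependent ℂ (fun i => (Int.castAddHom ℂ).comp (b i)) := by
  classical
  -- first over `ℚ`
  have hQ : LinearIndependent ℚ (fun i => (Int.castAddHom ℚ).comp (b i)) := by
    rw [← LinearIndependent.iff_fractionRing ℤ ℚ]
    let F : (G →+ ℤ) →ₗ[ℤ] (G →+ ℚ) :=
      { toFun := fun φ => (Int.castAddHom ℚ).comp φ
        map_add' := fun φ ψ => by ext g; simp
        map_smul' := fun m φ => by ext g; simp }
    have hF : LinearMap.ker F = ⊥ := by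
      rw [LinearMap.ker_eq_bot]
      intro φ ψ h
      ext g
      have := congrArg (fun χ : G →+ ℚ => χ g) h
      exact Int.cast_injective this
    exact hb.map' F hF
  rw [linearIndependent_iff'] at hQ ⊢
  intro s c hc i hi
  rw [← Module.forall_dual_apply_eq_zero_iff ℚ (c i)]
  intro f
  refine hQ s (fun i => f (c i)) ?_ i hi
  ext g
  have h1 := congrArg (fun χ : G →+ ℂ => f (χ g)) hc
  simp only [AddMonoidHom.finsetSum_apply, AddMonoidHom.smul_apply, AddMonoidHom.comp_apply,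
    Int.coe_castAddHom, smul_eq_mul, AddMonoidHom.zero_apply, map_zero, map_sum] at h1 ⊢
  rw [← h1]
  refine Finset.sum_congr rfl fun k _ => ?_
  have : c k * ((b k g : ℤ) : ℂ) = ((b k g : ℤ) : ℚ) • c k := by
    rw [Algebra.smul_def, mul_comm]; simp
  rw [this, map_smul, smul_eq_mul, mul_comm]

section X1

variable {N : ℕ} [NeZero N]

/-- the complexified basis of the lattice is `ℂ`-linearly independent -/
theorem linearIndependent_latToC_vBasis :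
    LinearIndependent ℂ (EC.latToC (Gamma0 N) ∘ vBasis (Gamma0 N)) := by
  have h1 : LinearIndependent ℤ
      (fun i => ((vBasis (Gamma0 N) i : ↥(VZ (Gamma0 N))) : Additive ↥(Gamma0 N) →+ ℤ)) :=
    (vBasis (Gamma0 N)).linearIndependent.map' (VZ (Gamma0 N)).subtype
      (Submodule.ker_subtype _)
  exact linearIndependent_castC _ h1

/-- **The mod `p` eigenvector attached to a congruence of eigensystems** (X2 ∘ X3): generic
family form. -/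
theorem exists_x1 {p : ℕ} [Fact p.Prime] {f : CuspForm (Gamma0 N) 2}
    (hf : f.IsNormalizedEigenform) {𝔪 : Ideal (integralClosure ℤ ℂ)} (hmax : 𝔪.IsMaximal)
    (hpm : (p : integralClosure ℤ ℂ) ∈ 𝔪)
    {κ : Type*} (ℓ : κ → ℕ) (hℓ : ∀ i, (ℓ i).Prime) (hℓN : ∀ i, ¬ ℓ i ∣ N) (n : κ → ℤ)
    (hcong : ∀ i, ∃ a : integralClosure ℤ ℂ, (a : ℂ) = ModularFormClass.qCoeff f (ℓ i) ∧
      a - (n i : integralClosure ℤ ℂ) ∈ 𝔪) :
    ∃ x₁ : ↥(VZ (Gamma0 N)), (¬ ∃ x', x₁ = (p : ℤ) • x') ∧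
      ∀ i, ∃ x', tL (hℓ i) (hℓN i) x₁ - n i • x₁ = (p : ℤ) • x' := by
  choose μ hμ hμn using hcong
  refine Fermat.Agent.S41lib.SK.exists_modP_eigenvector
    (EC.latToC (Gamma0 N))
    (fun i => tL (hℓ i) (hℓN i)) (fun i i' => tL_comm (hℓ i) (hℓN i) (hℓ i') (hℓN i'))
    (fun i => @EC.heckeTC N (ℓ i) ⟨hℓ i⟩ (hℓN i))
    (fun i x => ?_) (EC.eigenClass_mem_span f) (EC.eigenClass_ne_zero hf) μ (fun i => ?_)
    𝔪 hmax hpm n hμn
  · have : Fact (ℓ i).Prime := ⟨hℓ i⟩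
    exact EC.latToC_tL (hℓ i) (hℓN i) x
  · have : Fact (ℓ i).Prime := ⟨hℓ i⟩
    rw [hμ i]
    exact EC.heckeTC_eigenClass (hℓN i) hf

end X1

section Main

variable {N q : ℕ} [NeZero N] [Fact q.Prime] (hqN : ¬ q ∣ N)
  (x y z w : ℤ) (h : (q : ℤ) * x * w - (N : ℤ) * y * z = 1)

/-- **The vector `x` of `SK.level_raising_family`** with its three hypotheses `hx`, `hxeig`,
`hLR`, for `A = L_N × L_N`, `tA i = tLL`, `α = alphaL`, `β = betaL`. -/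
theorem exists_vector {p : ℕ} [Fact p.Prime] {f : CuspForm (Gamma0 N) 2}
    (hf : f.IsNormalizedEigenform) {𝔪 : Ideal (integralClosure ℤ ℂ)} (hmax : 𝔪.IsMaximal)
    (hpm : (p : integralClosure ℤ ℂ) ∈ 𝔪)
    {ι : Type*} (ℓ : ι → ℕ) (hℓ : ∀ i, (ℓ i).Prime) (hℓN : ∀ i, ¬ ℓ i ∣ N) (n : ι → ℤ)
    (hcong : ∀ i, ∃ a : integralClosure ℤ ℂ, (a : ℂ) = ModularFormClass.qCoeff f (ℓ i) ∧
      a - (n i : integralClosure ℤ ℂ) ∈ 𝔪)
    (hLR : ∃ a : integralClosure ℤ ℂ, (a : ℂ) = ModularFormClass.qCoeff f q ∧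
      a ^ 2 - ((q : integralClosure ℤ ℂ) + 1) ^ 2 ∈ 𝔪) :
    ∃ X : ↥(VZ (Gamma0 N)) × ↥(VZ (Gamma0 N)),
      (¬ ∃ a', X = (p : ℤ) • a') ∧
      (∀ i, ∃ a', tLL (hℓ i) (hℓN i) X - n i • X = (p : ℤ) • a') ∧
      (∃ a', betaL hqN x y z w h (alphaL hqN X) = (p : ℤ) • a') := by
  have hq : q.Prime := Fact.out
  obtain ⟨a, haq, ha⟩ := hLR
  obtain ⟨ε, hε, haε⟩ := exists_sign hmax.isPrime ha
  -- the extended family `Option ι`
  let ℓ' : Option ι → ℕ := fun o => o.elim q ℓ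
  have hℓ' : ∀ o, (ℓ' o).Prime := fun o => by
    cases o with
    | none => exact hq
    | some i => exact hℓ i
  have hℓN' : ∀ o, ¬ ℓ' o ∣ N := fun o => by
    cases o with
    | none => exact hqN
    | some i => exact hℓN i
  let n' : Option ι → ℤ := fun o => o.elim (ε * ((q : ℤ) + 1)) n
  have hcong' : ∀ o, ∃ a : integralClosure ℤ ℂ, (a : ℂ) = ModularFormClass.qCoeff f (ℓ' o) ∧
      a - (n' o : integralClosure ℤ ℂ) ∈ 𝔪 := fun o => by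
    cases o with
    | none => exact ⟨a, haq, haε⟩
    | some i => exact hcong i
  obtain ⟨x₁, hx₁, heig⟩ := exists_x1 hf hmax hpm ℓ' hℓ' hℓN' n' hcong'
  refine ⟨(x₁, (-ε) • x₁), pair_not_dvd ε x₁ hx₁, fun i => ?_, ?_⟩
  · obtain ⟨x', hx'⟩ := heig (some i)
    exact ⟨_, tLL_pair (hℓ i) (hℓN i) ε (n i) x₁ x' hx'⟩
  · obtain ⟨x', hx'⟩ := heig none
    exact ⟨_, betaL_alphaL_pair hqN x y z w h hε x₁ x' hx'⟩

end Main

section Template

/-- **helper7's shape** (hypotheses verbatim from the S41 template): the sign `ε` and the mod `p`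
eigenvector `x₁ ∈ L_N` of all good `T_ℓ` (eigenvalue `a_ℓ(E)`) and of `T_{q'}` (eigenvalue
`ε (q' + 1)`). -/
theorem exists_modp_class {N p q' : ℕ} [NeZero N] (hp : p.Prime) (hq' : q'.Prime)
    (hq'N : ¬ q' ∣ N) {W : WeierstrassCurve ℤ} (f : CuspForm (Gamma0 N) 2)
    (𝔪 : Ideal (integralClosure ℤ ℂ)) (hf : f.IsNormalizedEigenform) (hmax : 𝔪.IsMaximal)
    (hpm : (p : integralClosure ℤ ℂ) ∈ 𝔪)
    (hcong : ∀ ℓ : ℕ, ℓ.Prime → W.IsGoodPrimeFor ℓ → ¬ ℓ ∣ N → ℓ ≠ p →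
      ∃ a : integralClosure ℤ ℂ, (a : ℂ) = ModularFormClass.qCoeff f ℓ ∧
        a - ((W.apOfModel ℓ : ℤ) : integralClosure ℤ ℂ) ∈ 𝔪)
    (hLR : ∃ a : integralClosure ℤ ℂ, (a : ℂ) = ModularFormClass.qCoeff f q' ∧
      a ^ 2 - ((q' : integralClosure ℤ ℂ) + 1) ^ 2 ∈ 𝔪) :
    ∃ (ε : ℤ) (x₁ : ↥(VZ (Gamma0 N))), (ε = 1 ∨ ε = -1) ∧ (¬ ∃ x', x₁ = (p : ℤ) • x') ∧
      (∀ (ℓ : ℕ) (hℓ : ℓ.Prime) (hℓN : ¬ ℓ ∣ N), W.IsGoodPrimeFor ℓ → ℓ ≠ p →
        ∃ x', tL hℓ hℓN x₁ - (W.apOfModel ℓ) • x₁ = (p : ℤ) • x') ∧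
      (∃ x', tL hq' hq'N x₁ - (ε * ((q' : ℤ) + 1)) • x₁ = (p : ℤ) • x') := by
  have : Fact p.Prime := ⟨hp⟩
  obtain ⟨a, haq, ha⟩ := hLR
  obtain ⟨ε, hε, haε⟩ := exists_sign hmax.isPrime ha
  let ι : Type := {ℓ : ℕ // ℓ.Prime ∧ ¬ ℓ ∣ N ∧ W.IsGoodPrimeFor ℓ ∧ ℓ ≠ p}
  let ℓ' : Option ι → ℕ := fun o => o.elim q' (fun i => i.1)
  have hℓ' : ∀ o, (ℓ' o).Prime := fun o => by
    cases o with
    | none => exact hq'
    | some i => exact i.2.1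
  have hℓN' : ∀ o, ¬ ℓ' o ∣ N := fun o => by
    cases o with
    | none => exact hq'N
    | some i => exact i.2.2.1
  let n' : Option ι → ℤ := fun o => o.elim (ε * ((q' : ℤ) + 1)) (fun i => W.apOfModel i.1)
  have hcong' : ∀ o, ∃ a : integralClosure ℤ ℂ, (a : ℂ) = ModularFormClass.qCoeff f (ℓ' o) ∧
      a - (n' o : integralClosure ℤ ℂ) ∈ 𝔪 := fun o => by
    cases o with
    | none => exact ⟨a, haq, haε⟩
    | some i => exact hcong i.1 i.2.1 i.2.2.2.1 i.2.2.1 i.2.2.2.2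
  obtain ⟨x₁, hx₁, heig⟩ := exists_x1 hf hmax hpm ℓ' hℓ' hℓN' n' hcong'
  refine ⟨ε, x₁, hε, hx₁, fun ℓ hℓ hℓN hgood hℓp => ?_, ?_⟩
  · exact heig (some ⟨ℓ, hℓ, hℓN, hgood, hℓp⟩)
  · exact heig none

end Template

end Fermat.Agent.S41lib.BR.MP
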